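/-
PROGRAMME II / Case I (q-series end game), consumer plug `hrel` of helper15's
`gauss_T2_dlog_of_rel` (finding #1881), typed by helper25.

From a Hecke eigen-relation on a class `x = [D]` with `p • D = div f`:
`T_ℓ x + m • x = n • x` gives a relation between functions
`Nm_α (β f) * f ^ m = c * (f ^ n * w ^ p)` with `c` a nonzero constant and `w ≠ 0`.
-/
import Mathlib
import Fermat.Agent.Jac.HeckeComm
import Fermat.Agent.ES.NormCongruence
import Fermat.Agent.BR2.Filtration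
import Fermat.Agent.BR2.G5

set_option autoImplicit false
set_option linter.style.haveILetI false
set_option linter.unusedSectionVars false

namespace Fermat.Agent.FF4.CaseI.HRel

open AlgebraicCurve ModularCurve Fermat.Agent.X0 Fermat.Agent.Red Fermat.Agent.Hecke
  Fermat.Agent.Jac Fermat.Agent.ES Fermat.Agent.BR2

variable {N : ℕ} [NeZero N]

/-- The divisor of `Nm_α (β f)` is `T_ℓ (div f)`, pointwise, for `p • D = div f`. -/
theorem ord_normAlpha_of_isRep (ℓ : ℕ) [NeZero ℓ] {p : ℕ} {x : JZero N}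
    {D : Divisor.degZero (K := Kb) (F := Fb N)} {f : Fb N} (hR : Filt.IsRep p x D f)
    (P : Place Kb (Fb N)) :
    P.ord (normAlpha N ℓ (heckeBetaBar Kb N ℓ f)) =
      (p : ℤ) * heckeDiv N ℓ (D : Divisor Kb (Fb N)) P := by
  obtain ⟨-, hf, hD⟩ := hR
  rw [← heckeDivBar_principal N ℓ f hf (p • (D : Divisor Kb (Fb N))) hD P]
  show heckeDiv N ℓ (p • (D : Divisor Kb (Fb N))) P = _
  rw [map_nsmul, Finsupp.smul_apply, nsmul_eq_mul]

/-- **The function relation of a Hecke eigen-class.** -/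
theorem exists_rel_of_hecke_eigen (ℓ : Nat.Primes) {p : ℕ} (m n : ℕ) {x : JZero N}
    {D : Divisor.degZero (K := Kb) (F := Fb N)} {f : Fb N} (hR : Filt.IsRep p x D f)
    (heig : heckeOperatorBar N ℓ x + m • x = n • x) :
    haveI : NeZero (ℓ : ℕ) := ⟨ℓ.2.ne_zero⟩
    ∃ (w : Fb N) (c : Kb), w ≠ 0 ∧ c ≠ 0 ∧
      normAlpha N ℓ (heckeBetaBar Kb N ℓ f) * f ^ m =
        algebraMap Kb (Fb N) c * (f ^ n * w ^ p) := by
  haveI : NeZero (ℓ : ℕ) := ⟨ℓ.2.ne_zero⟩
  have hR' := hR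
  obtain ⟨hx, hf, hD⟩ := hR
  -- the class relation as a principal divisor
  set TD : Divisor.degZero (K := Kb) (F := Fb N) :=
    ⟨heckeDiv N ℓ D, Divisor.correspondence_mem_degZero _ _ _ _
      (fundamentalIdentityAlong_beta N ℓ) D.2⟩ with hTD
  have h1 : Pic0.mk (TD + m • D) = Pic0.mk (n • D) := by
    have : heckeOperatorBar N ℓ (Pic0.mk D) + m • Pic0.mk D = n • Pic0.mk D := by
      rw [hx]; exact heig
    rw [heckeOperatorBar_mk] at this
    exact this
  rw [G5.mk_eq_mk_iff] at h1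
  obtain ⟨w, hw, hDw⟩ := h1
  have hDw' : ∀ P : Place Kb (Fb N),
      heckeDiv N ℓ (D : Divisor Kb (Fb N)) P + (m : ℤ) * (D : Divisor Kb (Fb N)) P
        - (n : ℤ) * (D : Divisor Kb (Fb N)) P = P.ord w := by
    intro P
    have := hDw P
    simpa [hTD, Finsupp.sub_apply, Finsupp.add_apply, Finsupp.smul_apply, nsmul_eq_mul] using this
  -- the quotient has trivial divisor
  set Nf : Fb N := normAlpha N ℓ (heckeBetaBar Kb N ℓ f) with hNf
  have hβf : heckeBetaBar Kb N ℓ f ≠ 0 := (map_ne_zero _).mpr hf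
  have hNf0 : Nf ≠ 0 := normAlpha_ne_zero N ℓ hβf
  have hden : f ^ n * w ^ p ≠ 0 := mul_ne_zero (pow_ne_zero _ hf) (pow_ne_zero _ hw)
  have hnum : Nf * f ^ m ≠ 0 := mul_ne_zero hNf0 (pow_ne_zero _ hf)
  have hDf : ∀ P : Place Kb (Fb N), P.ord f = (p : ℤ) * (D : Divisor Kb (Fb N)) P := by
    intro P
    rw [← hD P, Finsupp.smul_apply, nsmul_eq_mul]
  obtain ⟨c, hc⟩ := exists_const_of_forall_ord_nonneg (Fermat.Agent.Val.riemannPkg_bar N)
    (f := Nf * f ^ m / (f ^ n * w ^ p)) (fun P => by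
      rw [div_eq_mul_inv, P.ord_mul hnum (inv_ne_zero hden), P.ord_inv,
        P.ord_mul hNf0 (pow_ne_zero _ hf), P.ord_mul (pow_ne_zero _ hf) (pow_ne_zero _ hw),
        Place.ord_pow, Place.ord_pow, Place.ord_pow, hNf, ord_normAlpha_of_isRep ℓ hR' P,
        hDf P, ← hDw' P]
      apply le_of_eq
      ring)
  have hc0 : c ≠ 0 := by
    rintro rfl
    rw [map_zero] at hc
    exact div_ne_zero hnum hden hc
  exact ⟨w, c, hw, hc0, by rw [← hc, div_mul_cancel₀ _ hden]⟩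

/-- The constants of `Fb N` as `q`-series. -/
theorem coe_algebraMap_Fb (c : Kb) :
    ((algebraMap Kb (Fb N) c : Fb N) : LaurentSeries Kb) = HahnSeries.C c := by
  show algebraMap Kb (LaurentSeries Kb) c = _
  rw [algebraMap_laurentSeries_eq_single, HahnSeries.C_apply]

/-- **The function relation of a Hecke eigen-class, in `ℚ̄((q))`** — verbatim the hypothesis
`hrel` of `K8Series.gauss_T2_dlog_of_rel`. -/
theorem exists_rel_coe_of_hecke_eigen (ℓ : Nat.Primes) {p : ℕ} (m n : ℕ) {x : JZero N}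
    {D : Divisor.degZero (K := Kb) (F := Fb N)} {f : Fb N} (hR : Filt.IsRep p x D f)
    (heig : heckeOperatorBar N ℓ x + m • x = n • x) :
    haveI : NeZero (ℓ : ℕ) := ⟨ℓ.2.ne_zero⟩
    ∃ (w : Fb N) (c : Kb), w ≠ 0 ∧ c ≠ 0 ∧
      ((normAlpha N ℓ (heckeBetaBar Kb N ℓ f) : Fb N) : LaurentSeries Kb) *
          (f : LaurentSeries Kb) ^ m =
        HahnSeries.C c * ((f : LaurentSeries Kb) ^ n * (w : LaurentSeries Kb) ^ p) := by
  haveI : NeZero (ℓ : ℕ) := ⟨ℓ.2.ne_zero⟩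
  obtain ⟨w, c, hw, hc, h⟩ := exists_rel_of_hecke_eigen ℓ m n hR heig
  refine ⟨w, c, hw, hc, ?_⟩
  have h2 := congrArg (fun z : Fb N => (z : LaurentSeries Kb)) h
  simpa only [MulMemClass.coe_mul, SubmonoidClass.coe_pow, coe_algebraMap_Fb] using h2

/-- Integer eigenvalue form: `T_ℓ x = a • x` with `a : ℤ`, written with `n - m = a`. -/
theorem exists_rel_coe_of_hecke_eigen_int (ℓ : Nat.Primes) {p : ℕ} (a : ℤ) {x : JZero N}
    {D : Divisor.degZero (K := Kb) (F := Fb N)} {f : Fb N} (hR : Filt.IsRep p x D f)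
    (heig : heckeOperatorBar N ℓ x = a • x) :
    haveI : NeZero (ℓ : ℕ) := ⟨ℓ.2.ne_zero⟩
    ∃ (m n : ℕ) (w : Fb N) (c : Kb), (n : ℤ) - (m : ℤ) = a ∧ w ≠ 0 ∧ c ≠ 0 ∧
      ((normAlpha N ℓ (heckeBetaBar Kb N ℓ f) : Fb N) : LaurentSeries Kb) *
          (f : LaurentSeries Kb) ^ m =
        HahnSeries.C c * ((f : LaurentSeries Kb) ^ n * (w : LaurentSeries Kb) ^ p) := by
  haveI : NeZero (ℓ : ℕ) := ⟨ℓ.2.ne_zero⟩
  have key : heckeOperatorBar N ℓ x + (a.toNat + (-a).toNat - a.toNat) • x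
      = (a.toNat + (-a).toNat - (-a).toNat) • x := by
    have h1 : ((a.toNat : ℤ) - ((-a).toNat : ℤ)) = a := by omega
    have h2 : a.toNat + (-a).toNat - a.toNat = (-a).toNat := by omega
    have h3 : a.toNat + (-a).toNat - (-a).toNat = a.toNat := by omega
    rw [h2, h3, heig]
    have : a • x + (((-a).toNat : ℕ) : ℤ) • x = ((a.toNat : ℕ) : ℤ) • x := by
      rw [← add_zsmul]
      congr 1
      omega
    simpa only [natCast_zsmul] using this
  obtain ⟨w, c, hw, hc, h⟩ := exists_rel_coe_of_hecke_eigen ℓ _ _ hR key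
  refine ⟨_, _, w, c, ?_, hw, hc, h⟩
  omega

end Fermat.Agent.FF4.CaseI.HRel
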