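import Mathlib
import Fermat.Agent.BR2.LevelPlug
import Fermat.Agent.BR2.Filtration
import Fermat.Agent.FF4.Hecke2.TwoLevel

/-!
# PROGRAMME II, Case I (S1e), part 1 (helper2): representatives of pulled-back classes

* `isRep_pic0Pull` (generic): `(D, f)` represents `x` ⇒ `(φ^* D, φ f)` represents `φ^* x`;
* `isRep_pull` : the same for `BR2.LevelGen.pull φ : JZero N →+ JZero N'`;
* `exists_isRep_castJ` : level casts;
* `exists_isRep_pullN` : `(D, f)` represents `x ∈ J₀(M q)[m]` ⇒ `pullN M q ℓ e x ∈ J₀(M ℓ q)` is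
  represented by `(D', phiA M q ℓ f)` for some `D'` (`phiA` = helper14's `α`-degeneracy
  `Fb (M * q) → Fb (M * ℓ * q)`).
-/

set_option autoImplicit false
set_option linter.unusedSectionVars false
set_option linter.style.haveILetI false

noncomputable section

namespace Fermat.Agent.FF4.CaseI

open AlgebraicCurve ModularCurve Fermat.Agent.X0 Fermat.Agent.Jac Fermat.Agent.BR2
  Fermat.Agent.BR2.LevelGen Fermat.Agent.BR2.LevelMaps Fermat.Agent.BR2.LevelPlug
  Fermat.Agent.BR.LevelTransfer Fermat.Agent.BR.PicFunct Fermat.Agent.FF4.Hecke2.TwoLevel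

section Generic

variable {K F F' : Type*} [Field K] [Field F] [Field F'] [Algebra K F] [Algebra K F']
variable [HasPrincipalDivisors K F] [HasPrincipalDivisors K F']
variable (φ : F →ₐ[K] F') (hφ : φ.toRingHom.IsIntegral)
variable (hFI : FundamentalIdentityAlong K φ hφ)

/-- `(D, f)` represents `x` ⇒ `(φ^* D, φ f)` represents `φ^* x`. -/
theorem isRep_pic0Pull {m : ℕ} {x : Pic0 K F} {D : Divisor.degZero (K := K) (F := F)} {f : F}
    (h : Filt.IsRep m x D f) :
    Filt.IsRep m (pic0Pull φ hφ hFI x) (degZeroPull φ hφ hFI D) (φ f) := by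
  obtain ⟨hx, hf, hD⟩ := h
  refine ⟨?_, (map_ne_zero φ).mpr hf, fun P => ?_⟩
  · rw [← hx, pic0Pull_mk]
  · rw [Finsupp.smul_apply, coe_degZeroPull, Divisor.pullbackAlong_apply,
      Place.ord_restrictAlong φ hφ P f, ← hD (P.restrictAlong φ hφ), Finsupp.smul_apply,
      nsmul_eq_mul, nsmul_eq_mul]
    ring

end Generic

section Levels

variable {N N' : ℕ} [NeZero N] [NeZero N']

/-- `(D, f)` represents `x` ⇒ `(φ^* D, φ f)` represents `pull φ x`. -/
theorem isRep_pull (φ : Fb N →ₐ[Kb] Fb N') {m : ℕ} {x : JZero N}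
    {D : Divisor.degZero (K := Kb) (F := Fb N)} {f : Fb N} (h : Filt.IsRep m x D f) :
    Filt.IsRep m (pull φ x)
      (degZeroPull φ (isIntegral_fb φ) (fundamentalIdentityAlong_fb φ) D) (φ f) :=
  isRep_pic0Pull φ (isIntegral_fb φ) (fundamentalIdentityAlong_fb φ) h

omit [NeZero N'] in
/-- Representatives along a level cast. -/
theorem exists_isRep_castJ (h : N = N') {m : ℕ} {x : JZero N}
    {D : Divisor.degZero (K := Kb) (F := Fb N)} {f : Fb N} (hR : Filt.IsRep m x D f) :
    ∃ D' : Divisor.degZero (K := Kb) (F := Fb N'), Filt.IsRep m (castJ h x) D' (castF h f) := by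
  subst h
  exact ⟨D, hR⟩

end Levels

section PullN

variable (M q ℓ : ℕ) [NeZero M] [hq : Fact q.Prime] [NeZero ℓ]
  (e : M * q * ℓ = M * ℓ * q)

/-- **Representatives of `α_ℓ^* x`.** -/
theorem exists_isRep_pullN {m : ℕ} {x : JZero (M * q)}
    {D : Divisor.degZero (K := Kb) (F := Fb (M * q))} {f : Fb (M * q)}
    (hR : Filt.IsRep m x D f) :
    haveI : NeZero q := ⟨hq.out.ne_zero⟩
    ∃ D' : Divisor.degZero (K := Kb) (F := Fb (M * ℓ * q)),
      Filt.IsRep m (pullN M q ℓ e x) D' (phiA M q ℓ f) := by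
  haveI : NeZero q := ⟨hq.out.ne_zero⟩
  have h1 := isRep_pull (heckeAlphaBar Kb (M * q) ℓ) hR
  obtain ⟨D', h2⟩ := exists_isRep_castJ e h1
  exact ⟨D', h2⟩

end PullN

end Fermat.Agent.FF4.CaseI
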