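import Mathlib
import Fermat.Agent.FF4.CaseI.RepPull
import Fermat.Agent.FF4.CaseI.HRel
import Fermat.Agent.FF4.Hecke2.TwoLevelSetup
import Fermat.Agent.FF4.Hecke2.ResidueZero
import Fermat.Agent.FF4.K6.ConormInj
import Fermat.Agent.FF4.K6.DescentC
import Fermat.Agent.FF4.K8.EndGame
import Fermat.Agent.FF4.K8Series.GaussPlug

/-!
# PROGRAMME II (S44), CASE I ASSEMBLY (S1e) at level `M'` (helper2)

`M` prime to `p`, `r ∤ M p` an auxiliary prime with `p ∤ r + 1`, `B ∣ p` a valuation subring of `ℚ̄`,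
`Dt : ModularData (M * r) p B hB _` the semistable model of `X₀(M r p)` at `p`.

`v₀ ∈ J₀(M p)[p]` a `p`-new (`alphaDown v₀ = 0`) class which is an eigenvector of the `T_ℓ`
(`ℓ = ℓ i ∤ M p`) with integer eigenvalues `a i`, and `w` a word in the `T_{ℓ i}` which kills
`S₂(Γ₀(M))` but with `a(w) ≢ 0 (mod p)` — the hypothesis (NO) at level `M`.  If the `r`-old class
`v := α_r^* v₀ = pullN M p r e v₀ ∈ J₀(M r p)` lies in the finite part `natSub (setup Dt) p`, then it
lies in the toric part `torSub (setup Dt) p`: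

`caseI_mem_torSub`.

Proof (skeleton v1, (S1e)).  `(D₀, f₀)` a representative of `v₀`, normalised so that `f₀` is a Gauss
unit for the `q`-expansion at `∞` (component `0`); `g̃₀ := res₀ f₀ ∈ F̃_M`.  Then `(D', α f₀)`
represents `v` (`RepPull`), and `ᾱ g̃₀` is a residue of `α f₀` on the component `0` at level `M r p`
(two-level compatibility, helper14).  `v ∈ natSub` gives `p ∣ ord_P (ᾱ g̃₀)` for all places `P` of
`F̃_{M r}`, hence `p ∣ ord_Q g̃₀` for all places `Q` of `F̃_M` (K6 (3), helper7: degree `r + 1`).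
`T_ℓ v₀ = a_ℓ v₀` gives `Nm_α(β f₀) f₀^m = c f₀^n w^p` (helper25 `HRel`), hence
`T_ℓ^{(2)} b = a_ℓ b` for `b := θ g̃₀ / g̃₀` (helper15 (Q5)).  The K8 end game (helper19) gives
`g̃₀ = h^p`, so `ᾱ g̃₀ = (ᾱ h)^p` and (E1) (helper1) puts `v` in `torSub`.
-/

set_option autoImplicit false
set_option linter.unusedSectionVars false
set_option linter.style.haveILetI false
set_option synthInstance.maxHeartbeats 400000

noncomputable section

namespace Fermat.Agent.FF4.CaseI

open AlgebraicCurve ModularCurve IsLocalRing Fermat.Agent.X0 Fermat.Agent.Val Fermat.Agent.Jac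
  Fermat.Agent.Red Fermat.Agent.Hecke Fermat.Agent.ES
  Fermat.Agent.BR.TwoVal Fermat.Agent.BR.S0.RedModular Fermat.Agent.BR.ConstRedTwo
  Fermat.Agent.BR.Final Fermat.Agent.BR2 Fermat.Agent.BR2.SetupOfData Fermat.Agent.BR.SS
  Fermat.Agent.BR2.LevelPlug Fermat.Agent.BR.LevelTransfer
  Fermat.Agent.FF4.Hecke2 Fermat.Agent.FF4.Hecke2.TwoLevel Fermat.Agent.FF4.K8Series

variable {M p r : ℕ} [NeZero M] [hp : Fact p.Prime] [NeZero r]
variable {B : ValuationSubring Kb} {hB : B.LiesOverPrime p} {hpM : ¬ p ∣ M}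
  {hpMr : ¬ p ∣ M * r}
variable [IsAlgClosed (ResidueField B)]

local notation "kB" => IsLocalRing.ResidueField B

/-! ### Step 1: a representative which is a Gauss unit on the component `0` -/

set_option maxHeartbeats 1000000 in
/-- Every class killed by `m` has a representative `(D, f)` with `f` a unit of `O₁` (the Gauss
valuation ring of the `q`-expansion at `∞`). -/
theorem exists_normalised_rep {m : ℕ} {x : JZero (M * p)} (hx : m • x = 0) :
    ∃ (D : Divisor.degZero (K := Kb) (F := Fb (M * p))) (f : Fb (M * p)),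
      Filt.IsRep m x D f ∧ ∃ h : f ∈ (constRedW1 B hB hpM).O, (constRedW1 B hB hpM).res ⟨f, h⟩ ≠ 0 := by
  obtain ⟨D, f, hR⟩ := Filt.exists_isRep hx
  obtain ⟨hxD, hf, hD⟩ := hR
  obtain ⟨g, hg, c, hc, hmem, hres⟩ := G5.exists_isRes (constRedW1 B hB hpM) hf
  refine ⟨D, c • f, ⟨hxD, smul_ne_zero hc hf, fun P => ?_⟩, hmem, ?_⟩
  · rw [hD P, Fermat.Agent.Red.NormalForm.ord_const_smul P hc f]
  · rw [hres]
    exact hg

/-! ### Step 2: the residue of `α f₀` on the component `0` of the upper level -/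

set_option maxHeartbeats 1000000 in
/-- For a unit `f` of `O₁` at level `M p`, `ᾱ (res f)` is a residue of `α f` on the component `0`
of the semistable setup at level `M r p`. -/
theorem isResidue_phiA_of_mem (Dt : ModularData (M * r) p B hB hpMr) {f : Fb (M * p)}
    (h : f ∈ (constRedW1 B hB hpM).O) (hne : (constRedW1 B hB hpM).res ⟨f, h⟩ ≠ 0) :
    Filt.IsResidue (setup Dt) 0 (phiA M p r f)
      (alphaC kB M r ((constRedW1 B hB hpM).res ⟨f, h⟩)) := by
  have hm' : phiA M p r f ∈ (compW B hB hpMr 0).O := phiA_mem hpM hpMr B hB 0 h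
  refine ⟨fun h0 => hne ((alphaC kB M r).injective (h0.trans (map_zero _).symm)), 1, one_ne_zero,
    ?_, ?_⟩
  · rw [one_smul]
    exact hm'
  · have e : (⟨(1 : Kb) • phiA M p r f, by rw [one_smul]; exact hm'⟩ : (setup Dt).O 0) =
        ⟨phiA M p r f, hm'⟩ := Subtype.ext (one_smul _ _)
    rw [e]
    exact res_phiA hpM hpMr B hB 0 h hm'

/-! ### Step 3: the orders of the residues of a class of the finite part -/

set_option maxHeartbeats 1000000 in
/-- For `x ∈ natSub`, every residue of every representative has all its orders divisible by `m`. -/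
theorem dvd_ord_of_mem_natSub (Dt : ModularData (M * r) p B hB hpMr) {m : ℕ}
    {x : JZero (M * r * p)} (hx : x ∈ Filt.natSub (setup Dt) m)
    {D : Divisor.degZero (K := Kb) (F := Fb (M * r * p))} {f : Fb (M * r * p)}
    (hR : Filt.IsRep m x D f) {v : Fin 2}
    {g : modularFunctionFieldFullC kB (M * r)} (hg : Filt.IsResidue (setup Dt) v f g)
    (Q : Place kB (modularFunctionFieldFullC kB (M * r))) : (m : ℤ) ∣ Q.ord g := by
  obtain ⟨D', f', hR', hres⟩ := hx
  obtain ⟨g', hg', E, hE⟩ := hres v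
  have h1 := Generic.ord_residue_cast_eq (S := setup Dt) (riemannPkg_bar (M * r * p)) hR' hR hg' hg Q
  rw [hE Q] at h1
  have h2 : (((m : ℤ) * E Q : ℤ) : ZMod m) = 0 := by
    push_cast
    rw [ZMod.natCast_self, zero_mul]
  rw [h2] at h1
  exact (ZMod.intCast_zmod_eq_zero_iff_dvd _ _).mp h1

/-! ### Step 5: the word in the eigenvalues, reduced mod `p` -/

omit [IsAlgClosed (ResidueField B)] in
/-- The value of a word at the reductions of integers is the reduction of its value. -/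
theorem lift_intCast_eq {ι : Type} (a : ι → ℤ) (w : FreeAlgebra ℤ ι) :
    FreeAlgebra.lift ℤ (fun i => ((a i : ℤ) : kB)) w = ((FreeAlgebra.lift ℤ a w : ℤ) : kB) := by
  have h : FreeAlgebra.lift ℤ (fun i => ((a i : ℤ) : kB)) =
      ((Int.castRingHom kB).toIntAlgHom).comp (FreeAlgebra.lift ℤ a) := by
    apply FreeAlgebra.hom_ext
    funext i
    simp only [Function.comp_apply, FreeAlgebra.lift_ι_apply]
    change _ = (Int.castRingHom kB).toIntAlgHom (FreeAlgebra.lift ℤ a (FreeAlgebra.ι ℤ i))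
    rw [FreeAlgebra.lift_ι_apply]
    rfl
  rw [h]
  rfl

/-! ### The Case I assembly -/

set_option maxHeartbeats 1000000 in
/-- **Case I at level `M`** (S1e).  A `p`-new `p`-torsion eigenclass `v₀` of `J₀(M p)` whose system
of eigenvalues does not occur at level `M` (mod `p`): if its `r`-old pull-back to `J₀(M r p)` lies in
the finite part, then it lies in the toric part. -/
theorem caseI_mem_torSub_of_ne (Dt : ModularData (M * r) p B hB hpMr) (hr : r.Prime)
    (hrM : ¬ r ∣ M)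
    (hpr : ¬ p ∣ r + 1) (e : M * p * r = M * r * p) (hK8 : K8.K8q M hpM B hB)
    {ι : Type} (ℓ : ι → Nat.Primes) (hℓ : ∀ i, ¬ ((ℓ i : ℕ) ∣ M * p))
    (w : FreeAlgebra ℤ ι) (hw : FreeAlgebra.lift ℤ (fun i => S49.heckeFam M (ℓ i)) w = 0)
    (a : ι → ℤ) (ha' : FreeAlgebra.lift ℤ (fun i => ((a i : ℤ) : kB)) w ≠ 0)
    {v0 : JZero (M * p)} (hpv0 : p • v0 = 0)
    (heig : ∀ i, heckeOperatorBar (M * p) (ℓ i) v0 = a i • v0)
    (hnew : alphaDown M p v0 = 0)
    (hnat : pullN M p r e v0 ∈ Filt.natSub (setup Dt) p) :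
    pullN M p r e v0 ∈ Filt.torSub (setup Dt) p := by
  haveI : CharP kB p := charP_residueField_of_liesOverPrime B hB
  obtain ⟨D0, f0, hR0, h, hne⟩ := exists_normalised_rep (B := B) (hB := hB) (hpM := hpM) hpv0
  obtain ⟨D', hR'⟩ := exists_isRep_pullN M p r e hR0
  have hres := isResidue_phiA_of_mem Dt h hne
  have hdivU : ∀ P : Place kB (modularFunctionFieldFullC kB (M * r)),
      (p : ℤ) ∣ P.ord (K6.inclC kB (dvd_mul_right M r) ((constRedW1 B hB hpM).res ⟨f0, h⟩)) :=
    fun P => dvd_ord_of_mem_natSub Dt hnat hR' hres P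
  have hdiv := K6.dvd_ord_of_dvd_ord_inclC B hB hr hrM hpMr hpr hdivU
  -- the eigen-relations
  have heig' : ∀ i, K8Series.T2fam ℓ i
      (K8Series.theta (((constRedW1 B hB hpM).res ⟨f0, h⟩ : modularFunctionFieldFullC kB M) :
          LaurentSeries kB) /
        (((constRedW1 B hB hpM).res ⟨f0, h⟩ : modularFunctionFieldFullC kB M) :
          LaurentSeries kB)) =
      ((a i : ℤ) : kB) •
        (K8Series.theta (((constRedW1 B hB hpM).res ⟨f0, h⟩ : modularFunctionFieldFullC kB M) :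
            LaurentSeries kB) /
          (((constRedW1 B hB hpM).res ⟨f0, h⟩ : modularFunctionFieldFullC kB M) :
            LaurentSeries kB)) := by
    intro i
    haveI : NeZero ((ℓ i : Nat.Primes) : ℕ) := ⟨(ℓ i).2.ne_zero⟩
    obtain ⟨m, n, w', c, hnm, hw', hc, hrel⟩ :=
      HRel.exists_rel_coe_of_hecke_eigen_int (ℓ i) (a i) hR0 (heig i)
    have hℓk : (((ℓ i : Nat.Primes) : ℕ) : kB) ≠ 0 := by
      intro h0
      have h1 : p ∣ ((ℓ i : Nat.Primes) : ℕ) := (CharP.cast_eq_zero_iff kB p _).mp h0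
      have h2 : p = ((ℓ i : Nat.Primes) : ℕ) :=
        ((Nat.prime_dvd_prime_iff_eq hp.out (ℓ i).2).mp h1)
      exact hℓ i (h2 ▸ dvd_mul_left p M)
    have hne' : gaussResA B (IsLocalRing.residue B) ⟨(f0 : LaurentSeries Kb), h⟩ ≠ 0 := by
      intro h0
      exact hne (Subtype.ext h0)
    exact gauss_T2_theta_div_of_rel_int (N := M * p) (ℓ i).2 B hB hℓk
      (ES.productFormula (ℓ i).2 (hℓ i)) f0 w' h hne' hw' c hc m n hrel (a i)
      (by rw [hnm, sub_self]; exact dvd_zero _)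
  obtain ⟨h', hh'⟩ := K8.k8_endgame M hpM B hB hK8 ℓ hℓ w hw (fun i => ((a i : ℤ) : kB)) ha'
    ((constRedW1 B hB hpM).res ⟨f0, h⟩) hne hdiv heig'
  refine ResidueZero.mem_torSub_setup_of_residue_zero_pow Dt
    (K6.alphaDown_pullN_eq_zero M p r e hp.out hpMr hnew) hR' hres
    ⟨alphaC kB M r h', 1, ?_⟩
  rw [map_one, one_mul, ← map_pow, hh']

/-- **Case I at level `M`**, the hypothesis (NO) in the form `p ∤ a(w)`. -/
theorem caseI_mem_torSub (Dt : ModularData (M * r) p B hB hpMr) (hr : r.Prime) (hrM : ¬ r ∣ M)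
    (hpr : ¬ p ∣ r + 1) (e : M * p * r = M * r * p) (hK8 : K8.K8q M hpM B hB)
    {ι : Type} (ℓ : ι → Nat.Primes) (hℓ : ∀ i, ¬ ((ℓ i : ℕ) ∣ M * p))
    (w : FreeAlgebra ℤ ι) (hw : FreeAlgebra.lift ℤ (fun i => S49.heckeFam M (ℓ i)) w = 0)
    (a : ι → ℤ) (ha : ¬ (p : ℤ) ∣ FreeAlgebra.lift ℤ a w)
    {v0 : JZero (M * p)} (hpv0 : p • v0 = 0)
    (heig : ∀ i, heckeOperatorBar (M * p) (ℓ i) v0 = a i • v0)
    (hnew : alphaDown M p v0 = 0)
    (hnat : pullN M p r e v0 ∈ Filt.natSub (setup Dt) p) :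
    pullN M p r e v0 ∈ Filt.torSub (setup Dt) p := by
  haveI : CharP kB p := charP_residueField_of_liesOverPrime B hB
  refine caseI_mem_torSub_of_ne Dt hr hrM hpr e hK8 ℓ hℓ w hw a ?_ hpv0 heig hnew hnat
  rw [lift_intCast_eq]
  intro h0
  exact ha ((CharP.intCast_eq_zero_iff kB p _).mp h0)

end Fermat.Agent.FF4.CaseI
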