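import Mathlib
import Fermat.Agent.FF4.CaseI.Assembly
import Fermat.Agent.FF4.K8.K8q
import Fermat.Agent.FF4.K4.WordBridgeQ6
import Fermat.Agent.FF4.S44Skeleton

/-!
# PROGRAMME II (S44), kernel (K-CASE1) of `FF4/S44Skeleton` v3 IS A THEOREM (helper2)

`kCase1 : KCase1 Dt W` for every semistable model `Dt` of `X₀(M' r p)` at `B ∣ p`, `r ∤ M'` prime with
`p ∤ r + 1`, `p ∤ M'`:

for `v₀` in a `p`-new pack `P₀` at level `M' p` and `t` an old-killer at level `M'`, if the `r`-old
class `u v₀ = pullN M' p r _ v₀` lies in the finite part `natSub (setup Dt) p`, it lies in the toric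
part `torSub (setup Dt) p`.

Inputs: `CaseI.caseI_mem_torSub_of_ne` (the assembly: representatives, two-level residues (helper14),
descent (3a) (helper7/helper23), `HRel` (helper25), (Q5) (helper15), (E1) (helper1)), the closed
kernel `K8.k8q` (helper19, helper22, helper18, helper15, helper23, helper28, helper2) and the word of
an old-killer (`K4.oldKiller_*`, helper28 on helper9's (Q6)).
-/

set_option autoImplicit false
set_option linter.unusedSectionVars false
set_option linter.style.haveILetI false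
set_option synthInstance.maxHeartbeats 400000

noncomputable section

namespace Fermat.Agent.FF4.CaseI

open ModularCurve IsLocalRing Fermat.Agent.X0 Fermat.Agent.BR.Final Fermat.Agent.BR2
  Fermat.Agent.BR2.SetupOfData Fermat.Agent.BR2.LevelPlug Fermat.Agent.Val
  Fermat.Agent.FF4.S40Skeleton Fermat.Agent.FF4.S44Skeleton Fermat.Agent.FF4.K4

variable {M' r p : ℕ} [NeZero M'] [NeZero r] [NeZero (M' * r)] [hpF : Fact p.Prime] [NeZero p]
  [NeZero (M' * p)] [NeZero (M' * r * p)]
variable {B : ValuationSubring Kb} {hB : B.LiesOverPrime p} {hpN : ¬ p ∣ M' * r}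
variable [IsAlgClosed (ResidueField B)]

set_option maxHeartbeats 1000000 in
/-- **(K-CASE1)** of `FF4/S44Skeleton` v3. -/
theorem kCase1 (Dt : ModularData (M' * r) p B hB hpN) (W : WeierstrassCurve ℤ)
    (hr : r.Prime) (hrM : ¬ r ∣ M') (hpr : ¬ p ∣ r + 1) (hpM' : ¬ p ∣ M') :
    KCase1 Dt W := by
  intro P₀ hnew₀ t ht v₀ hv₀ hnat
  haveI : CharP (ResidueField B) p := charP_residueField_of_liesOverPrime B hB
  exact caseI_mem_torSub_of_ne (hpM := hpM') Dt hr hrM hpr (level_eq M' p r)
    (K8.k8q M' hpM' B hB)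
    (fun i : goodSet W p M' => (i : Nat.Primes)) oldKiller_not_dvd
    (word (goodSet W p M') t) (oldKiller_heckeFam ht)
    (fun i : goodSet W p M' => W.apOfModel (i : Nat.Primes)) (oldKiller_value_ne_zero ht)
    (P₀.tors v₀ hv₀) (fun i => P₀.eigen (i : Nat.Primes) i.2 v₀ hv₀) (hnew₀ v₀ hv₀).1 hnat

/-- (K-CASE1) for an auxiliary prime in the sense of the skeleton. -/
theorem kCase1_of_isAux (Dt : ModularData (M' * r) p B hB hpN) (W : WeierstrassCurve ℤ)
    (haux : IsAux W p M' r) (hpM' : ¬ p ∣ M') : KCase1 Dt W :=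
  kCase1 Dt W haux.prime (fun h => haux.not_dvd (h.mul_right p)) haux.not_dvd_succ hpM'

end Fermat.Agent.FF4.CaseI
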